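/-
S15-EIS, layer B1 (abstract, Mathlib only): Fitting-type decomposition for a commuting family `S`
of endomorphisms of an `l`-primary group `𝒯` with finite levels.
`TT S` = the (commutative) ring generated by `S`, `CC S` = the common kernel of `S`,
`InI S i` : `i ∈ TT S` kills `CC S`  (an ideal of `TT S` containing `S`),
`K0 S` = `{x | ∃ i, InI S i ∧ i x = x}` = the part of `𝒯` on which the ideal acts "invertibly".
-/
import Mathlib

set_option autoImplicit false

namespace Fermat.Agent.S15.Eis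

variable {𝒯 : Type*} [AddCommGroup 𝒯] (S : Set (AddMonoid.End 𝒯))

/-- the ring generated by `S` -/
def TT : Subring (AddMonoid.End 𝒯) := Subring.closure S

/-- the common kernel of `S` -/
def CC : Set 𝒯 := {x | ∀ η ∈ S, η x = 0}

/-- the ideal of `TT S` killing `CC S` -/
def InI (i : AddMonoid.End 𝒯) : Prop := i ∈ TT S ∧ ∀ c ∈ CC S, i c = 0

/-- the non-Eisenstein part -/
def K0 : AddSubgroup 𝒯 := AddSubgroup.closure {x | ∃ i, InI S i ∧ i x = x}

variable {S}

theorem fitA_mul_apply (i j : AddMonoid.End 𝒯) (x : 𝒯) : (i * j) x = i (j x) := rfl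

theorem fitA_add_apply (i j : AddMonoid.End 𝒯) (x : 𝒯) : (i + j) x = i x + j x := rfl

theorem fitA_sub_apply (i j : AddMonoid.End 𝒯) (x : 𝒯) : (i - j) x = i x - j x := rfl

/-- F1': an endomorphism commuting with `S` commutes with `TT S`. -/
theorem TT_comm_of_comm {a : AddMonoid.End 𝒯} (ha : ∀ η ∈ S, a * η = η * a) :
    ∀ b ∈ TT S, a * b = b * a := by
  intro b hb
  induction hb using Subring.closure_induction with
  | mem x hx => exact ha x hx
  | zero => simp
  | one => simp
  | add x y _ _ hx hy => rw [mul_add, add_mul, hx, hy]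
  | neg x _ hx => rw [mul_neg, neg_mul, hx]
  | mul x y _ _ hx hy => rw [← mul_assoc, hx, mul_assoc, hy, mul_assoc]

/-- F1: `TT S` is commutative. -/
theorem TT_comm (hS : ∀ a ∈ S, ∀ b ∈ S, a * b = b * a) :
    ∀ a ∈ TT S, ∀ b ∈ TT S, a * b = b * a := by
  intro a ha b hb
  have h1 : ∀ η ∈ S, b * η = η * b := fun η hη =>
    (TT_comm_of_comm (a := η) (fun η' hη' => hS η hη η' hη') b hb).symm
  exact (TT_comm_of_comm h1 a ha).symm

/-- F3a -/
theorem InI.of_mem {η : AddMonoid.End 𝒯} (h : η ∈ S) : InI S η := by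
  exact ⟨Subring.subset_closure h, fun c hc => hc η h⟩

/-- F3b -/
theorem InI.circ {i j : AddMonoid.End 𝒯} (hi : InI S i) (hj : InI S j) :
    InI S (i + j - i * j) := by
  refine ⟨(TT S).sub_mem ((TT S).add_mem hi.1 hj.1) ((TT S).mul_mem hi.1 hj.1), fun c hc => ?_⟩
  rw [fitA_sub_apply, fitA_add_apply, fitA_mul_apply, hi.2 c hc,
    hj.2 c hc, map_zero, add_zero, sub_zero]

/-- F3c -/
theorem InI.pow {i : AddMonoid.End 𝒯} (hi : InI S i) {n : ℕ} (hn : 0 < n) : InI S (i ^ n) := by
  refine ⟨(TT S).pow_mem hi.1 n, fun c hc => ?_⟩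
  obtain ⟨k, rfl⟩ := Nat.exists_eq_succ_of_ne_zero hn.ne'
  rw [pow_succ, fitA_mul_apply, hi.2 c hc, map_zero]

/-- F2: the generating set of `K0 S` is already a subgroup.
[`i x = x`, `j y = y` ⇒ `k = i + j - i j` fixes `x` and `y` (commutativity); `-x`: same `i`;
`0`: `i = 0`.] -/
theorem mem_K0_iff (hS : ∀ a ∈ S, ∀ b ∈ S, a * b = b * a) {x : 𝒯} :
    x ∈ K0 S ↔ ∃ i, InI S i ∧ i x = x := by
  constructor
  · intro hx
    induction hx using AddSubgroup.closure_induction with
    | mem x hx => exact hx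
    | zero => exact ⟨0, ⟨(TT S).zero_mem, fun _ _ => rfl⟩, rfl⟩
    | add x y _ _ hx hy =>
      obtain ⟨i, hi, hix⟩ := hx
      obtain ⟨j, hj, hjy⟩ := hy
      refine ⟨i + j - i * j, hi.circ hj, ?_⟩
      have hc : ∀ z, i (j z) = j (i z) := fun z => by
        have := TT_comm hS i hi.1 j hj.1
        exact DFunLike.congr_fun this z
      have e1 : (i + j - i * j) x = x := by
        rw [fitA_sub_apply, fitA_add_apply, fitA_mul_apply, hc, hix]
        abel
      have e2 : (i + j - i * j) y = y := by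
        rw [fitA_sub_apply, fitA_add_apply, fitA_mul_apply, hjy]
        abel
      rw [map_add, e1, e2]
    | neg x _ hx =>
      obtain ⟨i, hi, hix⟩ := hx
      exact ⟨i, hi, by rw [map_neg, hix]⟩
  · intro hx
    exact AddSubgroup.subset_closure hx

/-- F4: `K0 S` is stable under every endomorphism commuting with `S`. -/
theorem map_mem_K0 (hS : ∀ a ∈ S, ∀ b ∈ S, a * b = b * a) {a : AddMonoid.End 𝒯}
    (ha : ∀ η ∈ S, a * η = η * a) {x : 𝒯} (hx : x ∈ K0 S) : a x ∈ K0 S := by
  obtain ⟨i, hi, hix⟩ := (mem_K0_iff hS).1 hx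
  refine (mem_K0_iff hS).2 ⟨i, hi, ?_⟩
  have := DFunLike.congr_fun (TT_comm_of_comm ha i hi.1) x
  rw [fitA_mul_apply, fitA_mul_apply, hix] at this
  exact this.symm

end Fermat.Agent.S15.Eis
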