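/-
S15-EIS, layer B1 (abstract, Mathlib only), part 2: idempotent powers on finite levels, divisibility
of `K0`, nilpotency modulo `K0`, and (E3) abstractly (F5 - F8).
-/
import Fermat.Agent.S15.Eis.FitA

set_option autoImplicit false

namespace Fermat.Agent.S15.Eis

variable {𝒯 : Type*} [AddCommGroup 𝒯] {S : Set (AddMonoid.End 𝒯)}

/-- F5: on a finite level every endomorphism has an idempotent power. -/
theorem exists_idem_pow {l : ℕ} (r : ℕ) (hfin : {x : 𝒯 | l ^ r • x = 0}.Finite)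
    (f : AddMonoid.End 𝒯) :
    ∃ n : ℕ, 0 < n ∧ ∀ x : 𝒯, l ^ r • x = 0 → (f ^ n) ((f ^ n) x) = (f ^ n) x := by
  classical
  -- the level is stable under `f ^ n`
  have hstab : ∀ (n : ℕ) (x : 𝒯), l ^ r • x = 0 → l ^ r • (f ^ n) x = 0 := fun n x hx => by
    rw [← map_nsmul, hx, map_zero]
  have : Finite {x : 𝒯 | l ^ r • x = 0} := hfin
  let F : ℕ → ({x : 𝒯 | l ^ r • x = 0} → {x : 𝒯 | l ^ r • x = 0}) :=
    fun n x => ⟨(f ^ n) x.1, hstab n x.1 x.2⟩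
  obtain ⟨a, b, hab, hF⟩ := Finite.exists_ne_map_eq_of_infinite F
  wlog hlt : a < b generalizing a b
  · exact this b a hab.symm hF.symm (lt_of_le_of_ne (not_lt.1 hlt) hab.symm)
  have hE : ∀ x : 𝒯, l ^ r • x = 0 → (f ^ a) x = (f ^ b) x := fun x hx =>
    congrArg Subtype.val (congrFun hF ⟨x, hx⟩)
  obtain ⟨d, rfl⟩ := Nat.exists_eq_add_of_lt hlt
  -- period `d + 1`
  have h1 : ∀ n, a ≤ n → ∀ x : 𝒯, l ^ r • x = 0 → (f ^ (n + (d + 1))) x = (f ^ n) x := by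
    intro n hn x hx
    obtain ⟨c, rfl⟩ := Nat.exists_eq_add_of_le hn
    have e1 : a + c + (d + 1) = c + (a + d + 1) := by ring
    have e2 : a + c = c + a := by ring
    rw [e1, e2, pow_add f c (a + d + 1), pow_add f c a, fitA_mul_apply, fitA_mul_apply, hE x hx]
  have h2 : ∀ k n, a ≤ n → ∀ x : 𝒯, l ^ r • x = 0 → (f ^ (n + k * (d + 1))) x = (f ^ n) x := by
    intro k
    induction k with
    | zero => intro n _ x _; simp
    | succ k ih =>
      intro n hn x hx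
      have e : n + (k + 1) * (d + 1) = (n + k * (d + 1)) + (d + 1) := by ring
      rw [e, h1 _ (le_trans hn (Nat.le_add_right _ _)) x hx, ih n hn x hx]
  refine ⟨(a + 1) * (d + 1), Nat.mul_pos (Nat.succ_pos _) (Nat.succ_pos _), fun x hx => ?_⟩
  rw [← fitA_mul_apply, ← pow_add]
  refine h2 (a + 1) _ ?_ x hx
  calc a ≤ a + 1 := Nat.le_succ a
    _ ≤ (a + 1) * (d + 1) := Nat.le_mul_of_pos_right _ (Nat.succ_pos _)

/-- F6: `K0 S` is `l`-divisible.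
[`x = i x`, `l z = x`, `l^r z = 0`; `e = i^n` idempotent on the level `r`; `z' = e z`:
`l z' = e x = x`, `e z' = z'`.] -/
theorem K0_div {l : ℕ} (hS : ∀ a ∈ S, ∀ b ∈ S, a * b = b * a)
    (htor : ∀ x : 𝒯, ∃ r : ℕ, l ^ r • x = 0)
    (hfin : ∀ r : ℕ, {x : 𝒯 | l ^ r • x = 0}.Finite) (hdiv : ∀ x : 𝒯, ∃ z : 𝒯, l • z = x)
    {x : 𝒯} (hx : x ∈ K0 S) : ∃ z ∈ K0 S, l • z = x := by
  obtain ⟨i, hi, hix⟩ := (mem_K0_iff hS).1 hx
  obtain ⟨z, hz⟩ := hdiv x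
  obtain ⟨r, hr⟩ := htor z
  obtain ⟨n, hn, hid⟩ := exists_idem_pow r (hfin r) i
  have hpx : ∀ k : ℕ, (i ^ k) x = x := by
    intro k
    induction k with
    | zero => simp
    | succ k ih => rw [pow_succ, fitA_mul_apply, hix, ih]
  refine ⟨(i ^ n) z, (mem_K0_iff hS).2 ⟨i ^ n, hi.pow hn, hid z hr⟩, ?_⟩
  rw [← map_nsmul, hz, hpx]

/-- F7: every `η ∈ S` is nilpotent modulo `K0 S` on each level. -/
theorem exists_pow_mem_K0 {l : ℕ} (r : ℕ) (hfin : {x : 𝒯 | l ^ r • x = 0}.Finite)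
    {η : AddMonoid.End 𝒯} (hη : η ∈ S) :
    ∃ n : ℕ, ∀ x : 𝒯, l ^ r • x = 0 → (η ^ n) x ∈ K0 S := by
  obtain ⟨n, hn, hid⟩ := exists_idem_pow r hfin η
  exact ⟨n, fun x hx => AddSubgroup.subset_closure ⟨η ^ n, (InI.of_mem hη).pow hn, hid x hx⟩⟩

/-- F8 = (E3) abstractly: `CC S ∩ (Gm + K0 S) ⊆ Gm` for every subgroup `Gm` stable under `S`.
[`k = i k`; `0 = i c = i g + k`, so `c = g - i g`; `TT S` preserves `Gm`.] -/
theorem mem_of_eq_add (hS : ∀ a ∈ S, ∀ b ∈ S, a * b = b * a) (Gm : AddSubgroup 𝒯)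
    (hGm : ∀ η ∈ S, ∀ g ∈ Gm, η g ∈ Gm) {c g k : 𝒯} (hc : c ∈ CC S) (hg : g ∈ Gm)
    (hk : k ∈ K0 S) (h : c = g + k) : c ∈ Gm := by
  have hTT : ∀ t ∈ TT S, ∀ g ∈ Gm, t g ∈ Gm := by
    intro t ht
    induction ht using Subring.closure_induction with
    | mem x hx => exact hGm x hx
    | zero => intro g _; exact Gm.zero_mem
    | one => intro g hg; exact hg
    | add x y _ _ hx hy => intro g hg; exact Gm.add_mem (hx g hg) (hy g hg)
    | neg x _ hx => intro g hg; exact Gm.neg_mem (hx g hg)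
    | mul x y _ _ hx hy => intro g hg; exact hx _ (hy g hg)
  obtain ⟨i, hi, hik⟩ := (mem_K0_iff hS).1 hk
  have h0 : i c = 0 := hi.2 c hc
  rw [h, map_add, hik] at h0
  have hk' : k = - i g := by rw [eq_neg_iff_add_eq_zero, add_comm]; exact h0
  rw [h, hk']
  exact Gm.add_mem hg (Gm.neg_mem (hTT i hi.1 g hg))

end Fermat.Agent.S15.Eis
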