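/-
S15-EIS, layer B2: the operators `σ`, `χ(σ)`, `t_σ`, `η_σ`, `T_ℓ`, `η_ℓ` on the TYPE
`𝒯 = torL ℓ J = J[ℓ^∞]` attached to raw data `R` and an arithmetic tower `T` adapted to `R`.
-/
import Fermat.Agent.S15.Abs.Wire
import Fermat.Agent.S15.Eis.FitB

set_option autoImplicit false

namespace Fermat.Agent.S15.Eis

open Fermat.Agent.S15.Coh Fermat.Agent.S15.Abs Fermat.Agent.S15.Abs.C

variable {J : Type} [AddCommGroup J] [DistribMulAction GQ J] {p ℓ : ℕ}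

/-- the Galois action on `𝒯` -/
noncomputable def galOp (ℓ : ℕ) (σ : GQ) : AddMonoid.End (torL ℓ J) where
  toFun x := ⟨σ • x.1, smul_mem_torL σ x.2⟩
  map_zero' := Subtype.ext (smul_zero σ)
  map_add' x y := Subtype.ext (smul_add σ x.1 y.1)

@[simp] theorem galOp_coe (σ : GQ) (x : torL ℓ J) : ((galOp ℓ σ x : torL ℓ J) : J) = σ • x.1 := rfl

/-- O0: compatibility of the levels of the cyclotomic character.
[a primitive `ℓ^r`-th root of unity `ζ` of `ℚ̄` satisfies `ζ^(ℓ^s) = 1`, so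
`ζ ^ (χ_s σ).val = σ ζ = ζ ^ (χ_r σ).val`; `IsPrimitiveRoot.pow_eq_pow_iff_modEq`-type lemma.] -/
theorem chi_val_modEq (hℓ : ℓ.Prime) (T : ArithTower GQ ℓ)
    (hχ : ∀ (r : ℕ) (σ : GQ), IsCyc ℓ r σ (T.χ r σ).val) {r s : ℕ} (hrs : r ≤ s) (σ : GQ) :
    (T.χ s σ).val ≡ (T.χ r σ).val [MOD ℓ ^ r] := by
  have hm : 0 < ℓ ^ r := pow_pos hℓ.pos r
  have : NeZero (ℓ ^ r) := ⟨hm.ne'⟩
  obtain ⟨ζ, hζ⟩ := HasEnoughRootsOfUnity.exists_primitiveRoot Qb (ℓ ^ r)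
  have h1 : ζ ^ (ℓ ^ r) = 1 := hζ.pow_eq_one
  have h2 : ζ ^ (ℓ ^ s) = 1 := by
    obtain ⟨d, rfl⟩ := Nat.exists_eq_add_of_le hrs
    rw [pow_add, pow_mul, h1, one_pow]
  have h : ζ ^ (T.χ s σ).val = ζ ^ (T.χ r σ).val := by
    rw [← hχ s σ ζ h2, ← hχ r σ ζ h1]
  rw [pow_eq_pow_mod (T.χ s σ).val h1, pow_eq_pow_mod (T.χ r σ).val h1] at h
  exact hζ.pow_inj (Nat.mod_lt _ hm) (Nat.mod_lt _ hm) h

/-- multiples only depend on the multiplier modulo an annihilator -/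
theorem smul_eq_of_modEq {M : Type*} [AddCommGroup M] {a b n : ℕ} (h : a ≡ b [MOD n]) {x : M}
    (hx : n • x = 0) : a • x = b • x := by
  have h1 : ∀ c : ℕ, c • x = (c % n) • x := by
    intro c
    conv_lhs => rw [← Nat.div_add_mod c n, add_smul, mul_smul, smul_comm, hx, smul_zero, zero_add]
  rw [h1 a, h1 b, h]

open Classical in
/-- the level of a torsion element -/
noncomputable def lvl (x : torL ℓ J) : ℕ := Nat.find x.2

omit [DistribMulAction GQ J] in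
theorem lvl_spec (x : torL ℓ J) : ℓ ^ lvl x • x.1 = 0 := by
  classical
  exact Nat.find_spec x.2

/-- O1: `(χ_s σ).val • x` does not depend on `s` as long as `ℓ^s x = 0`. -/
theorem chi_smul_eq (hℓ : ℓ.Prime) (T : ArithTower GQ ℓ)
    (hχ : ∀ (r : ℕ) (σ : GQ), IsCyc ℓ r σ (T.χ r σ).val) (σ : GQ) (x : torL ℓ J) {s : ℕ}
    (hs : ℓ ^ s • x.1 = 0) : (T.χ s σ).val • x = (T.χ (lvl x) σ).val • x := by
  classical
  have hle : lvl x ≤ s := Nat.find_min' x.2 hs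
  have h := chi_val_modEq hℓ T hχ hle σ
  have hx : ℓ ^ lvl x • x = 0 := Subtype.ext (lvl_spec x)
  exact smul_eq_of_modEq h hx

/-- O2: additivity of `x ↦ χ(σ) x`. -/
theorem chi_smul_add (hℓ : ℓ.Prime) (T : ArithTower GQ ℓ)
    (hχ : ∀ (r : ℕ) (σ : GQ), IsCyc ℓ r σ (T.χ r σ).val) (σ : GQ) (x y : torL ℓ J) :
    (T.χ (lvl (x + y)) σ).val • (x + y) =
      (T.χ (lvl x) σ).val • x + (T.χ (lvl y) σ).val • y := by
  have hx : ℓ ^ (lvl x + lvl y) • x.1 = 0 := by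
    rw [pow_add, mul_comm, mul_smul, lvl_spec, smul_zero]
  have hy : ℓ ^ (lvl x + lvl y) • y.1 = 0 := by
    rw [pow_add, mul_smul, lvl_spec, smul_zero]
  have hxy : ℓ ^ (lvl x + lvl y) • (x + y).1 = 0 := by
    rw [AddSubgroup.coe_add, smul_add, hx, hy, add_zero]
  rw [← chi_smul_eq hℓ T hχ σ (x + y) hxy, ← chi_smul_eq hℓ T hχ σ x hx,
    ← chi_smul_eq hℓ T hχ σ y hy, smul_add]

/-- all the hypotheses on `(R, T)` in one bundle -/
structure Adapted (R : Raw J p ℓ) (T : ArithTower GQ ℓ) : Prop where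
  χ : ∀ (r : ℕ) (σ : GQ), IsCyc ℓ r σ (T.χ r σ).val

theorem Adapted.of_towerFor {R : Raw J p ℓ} {T : ArithTower GQ ℓ} (h : TowerFor R T) :
    Adapted R T := ⟨h.χ⟩

variable {R : Raw J p ℓ} {T : ArithTower GQ ℓ} (hT : Adapted R T)

/-- multiplication by `χ(σ) ∈ ℤ_ℓ` on `𝒯` -/
noncomputable def chiOp (σ : GQ) : AddMonoid.End (torL ℓ J) :=
  AddMonoidHom.mk' (fun x => (T.χ (lvl x) σ).val • x) (chi_smul_add R.hℓ T hT.χ σ)

/-- `t_σ = σ + χ(σ) σ⁻¹` -/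
noncomputable def tOp (σ : GQ) : AddMonoid.End (torL ℓ J) :=
  galOp ℓ σ + chiOp hT σ * galOp ℓ σ⁻¹

/-- `η_σ = t_σ - 1 - χ(σ)` -/
noncomputable def etaOp (σ : GQ) : AddMonoid.End (torL ℓ J) := tOp hT σ - 1 - chiOp hT σ

/-- `T_ℓ` on `𝒯` -/
noncomputable def TlOp (R : Raw J p ℓ) : AddMonoid.End (torL ℓ J) where
  toFun x := ⟨R.Tℓ x.1, by
    obtain ⟨r, hr⟩ := x.2
    exact ⟨r, R.Tℓ_mem r x.1 hr⟩⟩
  map_zero' := Subtype.ext (by
    have h := R.Tℓ_add 0 (torInf J ℓ).zero_mem 0 (torInf J ℓ).zero_mem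
    rw [add_zero] at h
    exact left_eq_add.mp h)
  map_add' x y := Subtype.ext (R.Tℓ_add x.1 x.2 y.1 y.2)

/-- `η_ℓ = T_ℓ - 1 - ℓ` -/
noncomputable def etaL (R : Raw J p ℓ) : AddMonoid.End (torL ℓ J) := TlOp R - 1 - (ℓ : AddMonoid.End (torL ℓ J))

/-- the commuting family -/
noncomputable def SS : Set (AddMonoid.End (torL ℓ J)) := Set.range (etaOp hT) ∪ {etaL R}

/-- `Gm = J1(A_ℓ) ∩ J[ℓ^∞]` as a subgroup of `𝒯` -/
def GmT (R : Raw J p ℓ) : AddSubgroup (torL ℓ J) := (R.J1 R.Aℓ).comap (torL ℓ J).subtype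

end Fermat.Agent.S15.Eis
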