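/-
S15-EIS, layer B2, part B: formulas and commutation relations (O3 - O7).
-/
import Fermat.Agent.S15.Eis.OpsA

set_option autoImplicit false

namespace Fermat.Agent.S15.Eis

open Fermat.Agent.S15.Coh Fermat.Agent.S15.Abs Fermat.Agent.S15.Abs.C

variable {J : Type} [AddCommGroup J] [DistribMulAction GQ J] {p ℓ : ℕ}
  {R : Raw J p ℓ} {T : ArithTower GQ ℓ} (hT : Adapted R T)

/-- O3 -/
theorem chiOp_coe (σ : GQ) (x : torL ℓ J) {s : ℕ} (hs : ℓ ^ s • x.1 = 0) :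
    ((chiOp hT σ x : torL ℓ J) : J) = (T.χ s σ).val • x.1 := by
  have h : chiOp hT σ x = (T.χ s σ).val • x := (chi_smul_eq R.hℓ T hT.χ σ x hs).symm
  rw [h]
  rfl

/-- O4: `χ(σ)` is central. -/
theorem chiOp_comm (σ : GQ) (a : AddMonoid.End (torL ℓ J)) : a * chiOp hT σ = chiOp hT σ * a := by
  refine AddMonoidHom.ext fun x => ?_
  show a (chiOp hT σ x) = chiOp hT σ (a x)
  have hx : ℓ ^ lvl x • x = 0 := Subtype.ext (lvl_spec x)
  have hax : ℓ ^ lvl x • (a x).1 = 0 := by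
    have h : ℓ ^ lvl x • a x = 0 := by rw [← map_nsmul, hx, map_zero]
    exact congrArg Subtype.val h
  have h1 : chiOp hT σ x = (T.χ (lvl x) σ).val • x := rfl
  have h2 : chiOp hT σ (a x) = (T.χ (lvl x) σ).val • a x :=
    (chi_smul_eq R.hℓ T hT.χ σ (a x) hax).symm
  rw [h1, h2, map_nsmul]

/-- O5 -/
theorem etaOp_coe (σ : GQ) (x : torL ℓ J) {s : ℕ} (hs : ℓ ^ s • x.1 = 0) :
    ((etaOp hT σ x : torL ℓ J) : J) =
      σ • x.1 + (T.χ s σ).val • σ⁻¹ • x.1 - x.1 - (T.χ s σ).val • x.1 := by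
  have hs' : ℓ ^ s • (galOp ℓ σ⁻¹ x).1 = 0 := by
    rw [galOp_coe, smul_comm, hs, smul_zero]
  have h : etaOp hT σ x = galOp ℓ σ x + chiOp hT σ (galOp ℓ σ⁻¹ x) - x - chiOp hT σ x := rfl
  rw [h, AddSubgroup.coe_sub, AddSubgroup.coe_sub, AddSubgroup.coe_add, chiOp_coe hT σ x hs,
    chiOp_coe hT σ _ hs', galOp_coe, galOp_coe]

/-- O6: (CH) -/
theorem galOp_comm_tOp (σ τ : GQ) : galOp ℓ τ * tOp hT σ = tOp hT σ * galOp ℓ τ := by
  refine AddMonoidHom.ext fun x => Subtype.ext ?_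
  have hs : ℓ ^ lvl x • x.1 = 0 := lvl_spec x
  have hs1 : ℓ ^ lvl x • (galOp ℓ σ⁻¹ x).1 = 0 := by
    rw [galOp_coe, smul_comm, hs, smul_zero]
  have hs2 : ℓ ^ lvl x • (galOp ℓ σ⁻¹ (galOp ℓ τ x)).1 = 0 := by
    rw [galOp_coe, galOp_coe, smul_comm, smul_comm _ τ, hs, smul_zero, smul_zero]
  show ((galOp ℓ τ (galOp ℓ σ x + chiOp hT σ (galOp ℓ σ⁻¹ x)) : torL ℓ J) : J) =
      ((galOp ℓ σ (galOp ℓ τ x) + chiOp hT σ (galOp ℓ σ⁻¹ (galOp ℓ τ x)) : torL ℓ J) : J)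
  rw [galOp_coe, AddSubgroup.coe_add, AddSubgroup.coe_add, chiOp_coe hT σ _ hs1,
    chiOp_coe hT σ _ hs2, galOp_coe, galOp_coe, galOp_coe, galOp_coe, galOp_coe]
  exact R.ch (lvl x) σ _ (hT.χ (lvl x) σ) τ x.1 hs

/-- O7 -/
theorem galOp_comm_TlOp (τ : GQ) : galOp ℓ τ * TlOp R = TlOp R * galOp ℓ τ := by
  refine AddMonoidHom.ext fun x => Subtype.ext ?_
  exact (R.Tℓ_gal τ x.1 x.2).symm

end Fermat.Agent.S15.Eis
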