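/-
S15-EIS, layer B2, part C: the family `SS` (O8 - O14).
-/
import Fermat.Agent.S15.Eis.OpsB
import Fermat.Agent.S15.Abs.V.Dv

set_option autoImplicit false

namespace Fermat.Agent.S15.Eis

open Fermat.Agent.S15.Coh Fermat.Agent.S15.Abs Fermat.Agent.S15.Abs.C

variable {J : Type} [AddCommGroup J] [DistribMulAction GQ J] {p ℓ : ℕ}
  {R : Raw J p ℓ} {T : ArithTower GQ ℓ} (hT : Adapted R T)

theorem OpsC_commute_chiOp (σ : GQ) (a : AddMonoid.End (torL ℓ J)) : Commute a (chiOp hT σ) :=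
  chiOp_comm hT σ a

theorem OpsC_commute_tOp {a : AddMonoid.End (torL ℓ J)} {σ : GQ} (h1 : Commute a (galOp ℓ σ))
    (h2 : Commute a (galOp ℓ σ⁻¹)) : Commute a (tOp hT σ) :=
  h1.add_right ((OpsC_commute_chiOp hT σ a).mul_right h2)

theorem OpsC_commute_etaOp {a : AddMonoid.End (torL ℓ J)} {σ : GQ} (h : Commute a (tOp hT σ)) :
    Commute a (etaOp hT σ) :=
  (h.sub_right (Commute.one_right a)).sub_right (OpsC_commute_chiOp hT σ a)

theorem OpsC_commute_etaL {a : AddMonoid.End (torL ℓ J)} (h : Commute a (TlOp R)) :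
    Commute a (etaL R) :=
  (h.sub_right (Commute.one_right a)).sub_right (Nat.commute_cast a ℓ)

/-- O8: `σ` commutes with the family. -/
theorem galOp_comm_SS (τ : GQ) : ∀ η ∈ SS hT, galOp ℓ τ * η = η * galOp ℓ τ := by
  rintro η (⟨σ, rfl⟩ | rfl)
  · exact OpsC_commute_etaOp hT (galOp_comm_tOp hT σ τ)
  · exact OpsC_commute_etaL (galOp_comm_TlOp τ)

/-- O9: `T_ℓ` commutes with the family. -/
theorem TlOp_comm_SS : ∀ η ∈ SS hT, TlOp R * η = η * TlOp R := by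
  rintro η (⟨σ, rfl⟩ | rfl)
  · exact OpsC_commute_etaOp hT (OpsC_commute_tOp hT
      (Commute.symm (galOp_comm_TlOp σ)) (Commute.symm (galOp_comm_TlOp σ⁻¹)))
  · exact OpsC_commute_etaL (Commute.refl _)

/-- O10: the family is commutative. -/
theorem SS_comm : ∀ a ∈ SS hT, ∀ b ∈ SS hT, a * b = b * a := by
  have h1 : ∀ σ : GQ, Commute (etaOp hT σ) (etaL R) := fun σ =>
    OpsC_commute_etaL (Commute.symm (TlOp_comm_SS hT _ (Or.inl ⟨σ, rfl⟩)))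
  rintro a (⟨σ, rfl⟩ | rfl) b (⟨τ, rfl⟩ | rfl)
  · have h2 : Commute (tOp hT σ) (etaOp hT τ) :=
      OpsC_commute_etaOp hT (OpsC_commute_tOp hT (Commute.symm (galOp_comm_tOp hT σ τ))
        (Commute.symm (galOp_comm_tOp hT σ τ⁻¹)))
    exact (OpsC_commute_etaOp hT h2.symm).symm
  · exact h1 σ
  · exact (h1 τ).symm
  · rfl

/-- O11: `Gm` is stable under the family (`Raw.t_J1`, `Raw.Tℓ_J1`). -/
theorem SS_GmT : ∀ η ∈ SS hT, ∀ g ∈ GmT R, η g ∈ GmT R := by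
  rintro η (⟨σ, rfl⟩ | rfl) g hg
  · show ((etaOp hT σ g : torL ℓ J) : J) ∈ R.J1 R.Aℓ
    rw [etaOp_coe hT σ g (lvl_spec g)]
    exact (R.J1 R.Aℓ).sub_mem ((R.J1 R.Aℓ).sub_mem
      (R.t_J1 (lvl g) σ _ (hT.χ (lvl g) σ) g.1 (lvl_spec g) hg) hg) ((R.J1 R.Aℓ).nsmul_mem hg _)
  · show ((etaL R g : torL ℓ J) : J) ∈ R.J1 R.Aℓ
    have e : ((etaL R g : torL ℓ J) : J) = R.Tℓ g.1 - g.1 - ℓ • g.1 := by
      show (((TlOp R - 1 - (ℓ : AddMonoid.End (torL ℓ J))) g : torL ℓ J) : J) = _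
      rw [fitA_sub_apply, fitA_sub_apply, AddMonoid.End.natCast_apply]
      rfl
    rw [e]
    exact (R.J1 R.Aℓ).sub_mem ((R.J1 R.Aℓ).sub_mem (R.Tℓ_J1 g.1 g.2 hg) hg)
      ((R.J1 R.Aℓ).nsmul_mem hg _)

/-- O12: the cuspidal point is killed by the family. -/
theorem c_mem_CC : (⟨R.c, R.c_tor⟩ : torL ℓ J) ∈ CC (SS hT) := by
  rintro η (⟨σ, rfl⟩ | rfl)
  · apply Subtype.ext
    rw [etaOp_coe hT σ _ (lvl_spec _)]
    show σ • R.c + _ • σ⁻¹ • R.c - R.c - _ • R.c = 0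
    rw [R.c_fix, R.c_fix]
    abel
  · apply Subtype.ext
    show (((TlOp R - 1 - (ℓ : AddMonoid.End (torL ℓ J))) (⟨R.c, R.c_tor⟩ : torL ℓ J) :
      torL ℓ J) : J) = 0
    rw [fitA_sub_apply, fitA_sub_apply, AddMonoid.End.natCast_apply]
    show R.Tℓ R.c - R.c - ℓ • R.c = 0
    rw [R.c_Tℓ, add_smul, one_smul]
    abel

/-- O13: finite levels. -/
theorem finite_level (R : Raw J p ℓ) (r : ℕ) : {x : torL ℓ J | ℓ ^ r • x = 0}.Finite := by
  have h1 := Fermat.Agent.S15.V.Dv_finite_tor_set R.fin r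
  refine (h1.preimage (Subtype.val_injective.injOn (s := _))).subset ?_
  intro x hx
  exact congrArg Subtype.val hx

/-- O14: `𝒯` is `ℓ`-divisible. -/
theorem torL_div (R : Raw J p ℓ) (x : torL ℓ J) : ∃ z : torL ℓ J, ℓ • z = x := by
  obtain ⟨z, hz⟩ := R.div x.1
  obtain ⟨r, hr⟩ := x.2
  exact ⟨⟨z, r + 1, by rw [pow_succ, mul_smul, hz, hr]⟩, Subtype.ext hz⟩

end Fermat.Agent.S15.Eis
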