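/-
S15-EIS, layer A (abstract, Mathlib + Coh/Clean, Coh/Lev): Jordan-Hölder chains on a finite
`Γ`-module `G` killed by `m`, and their transfer to `BigFilt` on the levels of `𝔾`.
-/
import Fermat.Agent.S15.Coh.Lev

set_option autoImplicit false

namespace Fermat.Agent.S15.Eis

open Fermat.Agent.S15.Coh

variable {Γ : Type*} [Group Γ] {l m : ℕ}
  {G : Type*} [AddCommGroup G] [DistribMulAction Γ G] [Module (ZMod m) G]

/-- `H` is stable under `Γ` -/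
def Stable (Γ : Type*) [Group Γ] {G : Type*} [AddCommGroup G] [DistribMulAction Γ G]
    (H : AddSubgroup G) : Prop := ∀ γ : Γ, ∀ h ∈ H, γ • h ∈ H

/-- one step: index `l`, `Γ` acts on `H / H'` by `1` or by `χ` -/
structure EStep (l : ℕ) (χ : Γ →* ZMod m) (H' H : AddSubgroup G) : Prop where
  le : H' ≤ H
  card : Nat.card H = l * Nat.card H'
  act : (∀ γ : Γ, ∀ h ∈ H, γ • h - h ∈ H') ∨ (∀ γ : Γ, ∀ h ∈ H, γ • h - χ γ • h ∈ H')

/-- `H` is reachable from `⊥` by steps -/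
inductive EFilt (l : ℕ) (χ : Γ →* ZMod m) : AddSubgroup G → Prop
  | bot : EFilt l χ ⊥
  | step {H' H : AddSubgroup G} : EFilt l χ H' → EStep l χ H' H → EFilt l χ H

/-- `t_σ = σ + χ(σ) σ⁻¹` -/
def tt (χ : Γ →* ZMod m) (σ : Γ) : G →+ G :=
  DistribSMul.toAddMonoidHom G σ + χ σ • DistribSMul.toAddMonoidHom G σ⁻¹

/-- `η_σ = t_σ - 1 - χ(σ)` -/
def eta (χ : Γ →* ZMod m) (σ : Γ) : G →+ G :=
  tt χ σ - (1 + χ σ) • AddMonoidHom.id G

theorem tt_apply (χ : Γ →* ZMod m) (σ : Γ) (x : G) : tt χ σ x = σ • x + χ σ • σ⁻¹ • x := rfl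

theorem eta_apply (χ : Γ →* ZMod m) (σ : Γ) (x : G) :
    eta χ σ x = σ • x + χ σ • σ⁻¹ • x - (1 + χ σ) • x := rfl

/-- the hypotheses of the abstract Jordan-Hölder theorem -/
structure EisHyp (χ : Γ →* ZMod m) (G : Type*) [AddCommGroup G] [DistribMulAction Γ G]
    [Module (ZMod m) G] : Prop where
  /-- (CH) -/
  ch : ∀ (σ τ : Γ) (x : G), τ • tt χ σ x = tt χ σ (τ • x)
  /-- the `η_σ` are nilpotent -/
  nil : ∀ σ : Γ, ∃ n : ℕ, ∀ x : G, (eta χ σ)^[n] x = 0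

end Fermat.Agent.S15.Eis
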