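/-
S15-EIS, layer A: the relative eigenvector lemma.
`G` finite `Γ`-module killed by `m = l^r`, `H'` a proper `Γ`-stable subgroup, `S` minimal among the
`Γ`-stable subgroups strictly containing `H'`.  Under `EisHyp` the group `Γ` acts on `S / H'`
trivially or through `χ`, and `l S ≤ H'`.   Everything is "modulo `H'`", no quotient types.
-/
import Fermat.Agent.S15.Eis.Chain

set_option autoImplicit false

namespace Fermat.Agent.S15.Eis

variable {Γ : Type*} [Group Γ] {l m : ℕ}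
  {G : Type*} [AddCommGroup G] [DistribMulAction Γ G] [Module (ZMod m) G]

/-- `S` is minimal among the stable subgroups strictly containing the stable subgroup `H'` -/
structure MinOver (Γ : Type*) [Group Γ] {G : Type*} [AddCommGroup G] [DistribMulAction Γ G]
    (H' S : AddSubgroup G) : Prop where
  stab' : Stable Γ H'
  stab : Stable Γ S
  lt : H' < S
  min : ∀ S' : AddSubgroup G, Stable Γ S' → H' ≤ S' → S' ≤ S → S' = H' ∨ S' = S

/-- Eg0 -/
theorem exists_minOver [Finite G] {H' : AddSubgroup G} (hH' : Stable Γ H') (hne : H' ≠ ⊤) :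
    ∃ S : AddSubgroup G, MinOver Γ H' S := by
  have hwf : WellFounded ((· < ·) : AddSubgroup G → AddSubgroup G → Prop) := wellFounded_lt
  obtain ⟨S, ⟨hS1, hS2⟩, hmin⟩ := hwf.has_min {S : AddSubgroup G | Stable Γ S ∧ H' < S}
    ⟨⊤, fun _ _ _ => AddSubgroup.mem_top _, lt_top_iff_ne_top.2 hne⟩
  refine ⟨S, hH', hS1, hS2, fun S' hS' h1 h2 => ?_⟩
  rcases eq_or_lt_of_le h1 with h3 | h3
  · exact Or.inl h3.symm
  · rcases eq_or_lt_of_le h2 with h4 | h4
    · exact Or.inr h4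
    · exact absurd h4 (hmin S' ⟨hS', h3⟩)

/-- Eg1: a `Γ`-equivariant endomorphism which is nilpotent modulo `H'` on `S` kills `S / H'`.
[`S₁ = {s ∈ S : f s ∈ H'}` is stable, contains `H'`; it is not `H'`: for `s ∈ S \ H'` take the
least `j` with `f^j s ∈ H'`; then `f^(j-1) s ∈ S₁ \ H'`.] -/
theorem MinOver.map_mem {H' S : AddSubgroup G} (h : MinOver Γ H' S) (f : G →+ G)
    (hcomm : ∀ (γ : Γ) (x : G), γ • f x = f (γ • x)) (hH' : ∀ x ∈ H', f x ∈ H')
    (hS : ∀ x ∈ S, f x ∈ S) (hnil : ∃ n : ℕ, ∀ x ∈ S, f^[n] x ∈ H') :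
    ∀ s ∈ S, f s ∈ H' := by
  classical
  have hS₁ : Stable Γ (S ⊓ H'.comap f) := by
    intro γ x hx
    refine ⟨h.stab γ x hx.1, ?_⟩
    show f (γ • x) ∈ H'
    rw [← hcomm]
    exact h.stab' γ _ hx.2
  rcases h.min (S ⊓ H'.comap f) hS₁ (fun x hx => ⟨h.lt.le hx, hH' x hx⟩) inf_le_left with h1 | h1
  · exfalso
    obtain ⟨s, hsS, hsH⟩ := SetLike.exists_of_lt h.lt
    obtain ⟨n, hn⟩ := hnil
    have hex : ∃ j : ℕ, f^[j] s ∈ H' := ⟨n, hn s hsS⟩
    have hit : ∀ j : ℕ, f^[j] s ∈ S := by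
      intro j
      induction j with
      | zero => exact hsS
      | succ j ih => rw [Function.iterate_succ_apply']; exact hS _ ih
    have hj := Nat.find_spec hex
    rcases Nat.eq_zero_or_eq_succ_pred (Nat.find hex) with h0 | h0
    · rw [h0] at hj
      exact hsH hj
    · set k := (Nat.find hex).pred with hk
      have hk1 : f^[k] s ∉ H' := Nat.find_min hex (by rw [h0]; exact Nat.lt_succ_self k)
      apply hk1
      rw [← h1]
      refine ⟨hit k, ?_⟩
      show f (f^[k] s) ∈ H'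
      rw [h0, Nat.succ_eq_add_one, Function.iterate_succ_apply'] at hj
      exact hj
  · intro s hs
    have : s ∈ S ⊓ H'.comap f := by rw [h1]; exact hs
    exact this.2

/-- Eg2: subgroups are stable under `ZMod m`-scalars. -/
theorem zmod_smul_mem [NeZero m] (H : AddSubgroup G) (c : ZMod m) {h : G} (hh : h ∈ H) :
    c • h ∈ H := by
  have e : c • h = c.val • h := by
    rw [← Nat.cast_smul_eq_nsmul (ZMod m), ZMod.natCast_zmod_val]
  rw [e]
  exact H.nsmul_mem hh _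

/-- Eg3 -/
theorem MinOver.l_smul_mem {H' S : AddSubgroup G} (h : MinOver Γ H' S) {r : ℕ} (hm : m = l ^ r) :
    ∀ s ∈ S, l • s ∈ H' := by
  have hit : ∀ (j : ℕ) (x : G), (nsmulAddMonoidHom (α := G) l)^[j] x = l ^ j • x := by
    intro j x
    induction j with
    | zero => simp
    | succ j ih =>
      rw [Function.iterate_succ_apply', ih, nsmulAddMonoidHom_apply, ← mul_smul, ← pow_succ']
  refine h.map_mem (nsmulAddMonoidHom l) ?_ ?_ ?_ ⟨r, ?_⟩
  · intro γ x
    exact map_nsmul (DistribSMul.toAddMonoidHom G γ) l x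
  · intro x hx
    exact H'.nsmul_mem hx l
  · intro x hx
    exact S.nsmul_mem hx l
  · intro x _
    rw [hit, ← hm, ← Nat.cast_smul_eq_nsmul (ZMod m), ZMod.natCast_self, zero_smul]
    exact H'.zero_mem

/-- Eg4: `(E_σ)`: `σ s + χ(σ) σ⁻¹ s - (1 + χ σ) s ∈ H'` for `s ∈ S`. -/
theorem MinOver.eta_mem [NeZero m] {H' S : AddSubgroup G} (h : MinOver Γ H' S) {χ : Γ →* ZMod m}
    (hE : EisHyp χ G) (σ : Γ) : ∀ s ∈ S, eta χ σ s ∈ H' := by
  have hst : ∀ H : AddSubgroup G, Stable Γ H → ∀ x ∈ H, eta χ σ x ∈ H := by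
    intro H hH x hx
    rw [eta_apply]
    exact H.sub_mem (H.add_mem (hH σ x hx) (zmod_smul_mem H _ (hH σ⁻¹ x hx)))
      (zmod_smul_mem H _ hx)
  obtain ⟨n, hn⟩ := hE.nil σ
  refine h.map_mem (eta χ σ) ?_ (hst H' h.stab') (hst S h.stab) ⟨n, fun x _ => ?_⟩
  · intro γ x
    have h1 : ∀ y : G, eta χ σ y = tt χ σ y - (1 + χ σ) • y := fun _ => rfl
    rw [h1, h1, smul_sub, hE.ch]
    congr 1
    exact ZMod.map_smul (DistribSMul.toAddMonoidHom G γ) (1 + χ σ) x
  · rw [hn]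
    exact H'.zero_mem

end Fermat.Agent.S15.Eis
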