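/-
S15-EIS, layer A: the relative eigenvector lemma, part B (Eg5, Eg6).
-/
import Fermat.Agent.S15.Eis.EigenA

set_option autoImplicit false

namespace Fermat.Agent.S15.Eis

variable {Γ : Type*} [Group Γ] {l m : ℕ}
  {G : Type*} [AddCommGroup G] [DistribMulAction Γ G] [Module (ZMod m) G]

theorem EigenB_key (χ : Γ →* ZMod m) {g : Γ} (hg : χ g = 1) (h : Γ) (v : G) :
    χ h • (g • h⁻¹ • v - h⁻¹ • v) =
      h • (g • v - v) + χ h • eta χ g (h⁻¹ • v) - eta χ (h * g) v + eta χ h v := by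
  simp only [eta_apply, map_mul, hg, mul_one, mul_smul, mul_inv_rev, smul_sub]
  generalize h • g • v = A
  generalize h • v = B
  generalize h⁻¹ • v = w
  generalize g • w = C
  generalize g⁻¹ • w = D
  generalize χ h = c
  module

theorem EigenB_sq (χ : Γ →* ZMod m) {g : Γ} (hg : χ g = 1) (s : G) :
    g • (g • s - s) - (g • s - s) = g • eta χ g s := by
  simp only [eta_apply, hg, one_smul, add_smul, smul_add, smul_sub, smul_inv_smul]
  abel

omit [DistribMulAction Γ G] in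
theorem EigenB_unit (χ : Γ →* ZMod m) (k : Γ) (x : G) : χ k • χ k⁻¹ • x = x := by
  rw [← mul_smul, ← map_mul, mul_inv_cancel, map_one, one_smul]

/-- Eg5: an element `g` with `χ g = 1` acts trivially on `S / H'`.
[`S₃ = {s ∈ S : g s - s ∈ H'}`.  Modulo `H'`, for `v ∈ S`, `h ∈ Γ`:
`h (g - 1) v ≡ χ(h) (g - 1) h⁻¹ v` (subtract `(E_h)(v)` from `(E_{hg})(v)` and use `(E_g)(h⁻¹ v)`),
so `S₃` is stable.  `(g - 1)² s = g • (E_g)(s) ∈ H'`, so `S₃ ≠ H'`.] -/
theorem MinOver.smul_sub_mem_of_chi_eq_one [NeZero m] {H' S : AddSubgroup G}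
    (h : MinOver Γ H' S) {χ : Γ →* ZMod m}
    (hη : ∀ σ : Γ, ∀ s ∈ S, eta χ σ s ∈ H') {g : Γ} (hg : χ g = 1) :
    ∀ s ∈ S, g • s - s ∈ H' := by
  let S₃ : AddSubgroup G :=
    { carrier := {s | s ∈ S ∧ g • s - s ∈ H'}
      zero_mem' := ⟨S.zero_mem, by rw [smul_zero, sub_zero]; exact H'.zero_mem⟩
      add_mem' := by
        rintro a b ⟨ha, ha'⟩ ⟨hb, hb'⟩
        refine ⟨S.add_mem ha hb, ?_⟩
        have e : g • (a + b) - (a + b) = (g • a - a) + (g • b - b) := by rw [smul_add]; abel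
        rw [e]
        exact H'.add_mem ha' hb'
      neg_mem' := by
        rintro a ⟨ha, ha'⟩
        refine ⟨S.neg_mem ha, ?_⟩
        have e : g • (-a) - (-a) = -(g • a - a) := by rw [smul_neg]; abel
        rw [e]
        exact H'.neg_mem ha' }
  have hmem : ∀ s, s ∈ S₃ ↔ s ∈ S ∧ g • s - s ∈ H' := fun _ => Iff.rfl
  have hstab : Stable Γ S₃ := by
    intro k s hs
    obtain ⟨hsS, hsH⟩ := (hmem s).1 hs
    refine (hmem _).2 ⟨h.stab k s hsS, ?_⟩
    have key := EigenB_key χ hg k⁻¹ s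
    rw [inv_inv] at key
    have h1 : χ k⁻¹ • (g • k • s - k • s) ∈ H' := by
      rw [key]
      exact H'.add_mem (H'.sub_mem (H'.add_mem (h.stab' _ _ hsH)
        (zmod_smul_mem H' _ (hη g _ (h.stab k s hsS)))) (hη _ s hsS)) (hη _ s hsS)
    have h2 := zmod_smul_mem H' (χ k) h1
    rwa [EigenB_unit] at h2
  have hle : H' ≤ S₃ := fun x hx =>
    (hmem x).2 ⟨h.lt.le hx, H'.sub_mem (h.stab' g x hx) hx⟩
  rcases h.min S₃ hstab hle (fun x hx => ((hmem x).1 hx).1) with h1 | h1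
  · exfalso
    obtain ⟨s, hsS, hsH⟩ := SetLike.exists_of_lt h.lt
    have hu : g • s - s ∈ S₃ := by
      refine (hmem _).2 ⟨S.sub_mem (h.stab g s hsS) hsS, ?_⟩
      rw [EigenB_sq χ hg]
      exact h.stab' g _ (hη g s hsS)
    rw [h1] at hu
    have hs3 : s ∈ S₃ := (hmem s).2 ⟨hsS, hu⟩
    rw [h1] at hs3
    exact hsH hs3
  · intro s hs
    have : s ∈ S₃ := by rw [h1]; exact hs
    exact ((hmem s).1 this).2

/-- Eg6: `Γ` acts commutatively on `S / H'` (apply Eg5 to the commutator). -/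
theorem MinOver.comm_mem [NeZero m] {H' S : AddSubgroup G}
    (h : MinOver Γ H' S) {χ : Γ →* ZMod m}
    (hη : ∀ σ : Γ, ∀ s ∈ S, eta χ σ s ∈ H') (σ τ : Γ) :
    ∀ s ∈ S, σ • τ • s - τ • σ • s ∈ H' := by
  intro s hs
  have h1 : χ σ * χ σ⁻¹ = 1 := by rw [← map_mul, mul_inv_cancel, map_one]
  have h2 : χ τ * χ τ⁻¹ = 1 := by rw [← map_mul, mul_inv_cancel, map_one]
  have hc : χ (σ * τ * σ⁻¹ * τ⁻¹) = 1 := by
    rw [map_mul, map_mul, map_mul]
    calc χ σ * χ τ * χ σ⁻¹ * χ τ⁻¹ = (χ σ * χ σ⁻¹) * (χ τ * χ τ⁻¹) := by ring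
      _ = 1 := by rw [h1, h2, one_mul]
  have h3 := h.smul_sub_mem_of_chi_eq_one hη hc (τ • σ • s) (h.stab τ _ (h.stab σ s hs))
  have e : (σ * τ * σ⁻¹ * τ⁻¹) • τ • σ • s = σ • τ • s := by
    simp only [mul_smul, inv_smul_smul]
  rwa [e] at h3

end Fermat.Agent.S15.Eis
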