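/-
S15-EIS, layer A: the relative eigenvector lemma, part C (Eg7, Eg8).
-/
import Fermat.Agent.S15.Eis.EigenB

set_option autoImplicit false

namespace Fermat.Agent.S15.Eis

variable {Γ : Type*} [Group Γ] {l m : ℕ}
  {G : Type*} [AddCommGroup G] [DistribMulAction Γ G] [Module (ZMod m) G]

theorem EigenC_smul_comm (γ : Γ) (c : ZMod m) (x : G) : γ • c • x = c • γ • x :=
  ZMod.map_smul (DistribSMul.toAddMonoidHom G γ) c x

theorem EigenC_key (χ : Γ →* ZMod m) (σ : Γ) (s : G) :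
    σ • (σ • s - χ σ • s) - (σ • s - χ σ • s) = σ • eta χ σ s := by
  simp only [eta_apply, smul_add, smul_sub, EigenC_smul_comm, smul_inv_smul, add_smul, one_smul]
  abel

/-- Eg7: each `σ` acts on `S / H'` as `1` or as `χ σ`.
[`S₅ = {s ∈ S : σ s - s ∈ H'}` is stable by Eg6. If `S₅ = H'`: for `s ∈ S`,
`(σ - 1)(σ - χ σ) s = σ • (E_σ)(s) ∈ H'` and `(σ - χ σ) s ∈ S`, so `(σ - χ σ) s ∈ S₅ = H'`.] -/
theorem MinOver.one_or_chi [NeZero m] {H' S : AddSubgroup G}
    (h : MinOver Γ H' S) {χ : Γ →* ZMod m}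
    (hη : ∀ σ : Γ, ∀ s ∈ S, eta χ σ s ∈ H') (σ : Γ) :
    (∀ s ∈ S, σ • s - s ∈ H') ∨ (∀ s ∈ S, σ • s - χ σ • s ∈ H') := by
  let S₅ : AddSubgroup G :=
    { carrier := {s | s ∈ S ∧ σ • s - s ∈ H'}
      zero_mem' := ⟨S.zero_mem, by rw [smul_zero, sub_zero]; exact H'.zero_mem⟩
      add_mem' := by
        rintro a b ⟨ha, ha'⟩ ⟨hb, hb'⟩
        refine ⟨S.add_mem ha hb, ?_⟩
        have e : σ • (a + b) - (a + b) = (σ • a - a) + (σ • b - b) := by rw [smul_add]; abel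
        rw [e]
        exact H'.add_mem ha' hb'
      neg_mem' := by
        rintro a ⟨ha, ha'⟩
        refine ⟨S.neg_mem ha, ?_⟩
        have e : σ • (-a) - (-a) = -(σ • a - a) := by rw [smul_neg]; abel
        rw [e]
        exact H'.neg_mem ha' }
  have hmem : ∀ s, s ∈ S₅ ↔ s ∈ S ∧ σ • s - s ∈ H' := fun _ => Iff.rfl
  have hstab : Stable Γ S₅ := by
    intro τ s hs
    obtain ⟨hsS, hsH⟩ := (hmem s).1 hs
    refine (hmem _).2 ⟨h.stab τ s hsS, ?_⟩
    have e : σ • τ • s - τ • s = (σ • τ • s - τ • σ • s) + τ • (σ • s - s) := by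
      rw [smul_sub]; abel
    rw [e]
    exact H'.add_mem (h.comm_mem hη σ τ s hsS) (h.stab' τ _ hsH)
  have hle : H' ≤ S₅ := fun x hx =>
    (hmem x).2 ⟨h.lt.le hx, H'.sub_mem (h.stab' σ x hx) hx⟩
  rcases h.min S₅ hstab hle (fun x hx => ((hmem x).1 hx).1) with h1 | h1
  · right
    intro s hs
    have hw : σ • s - χ σ • s ∈ S₅ := by
      refine (hmem _).2 ⟨S.sub_mem (h.stab σ s hs) (zmod_smul_mem S _ hs), ?_⟩
      rw [EigenC_key]
      exact h.stab' σ _ (hη σ s hs)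
    rwa [h1] at hw
  · left
    intro s hs
    have : s ∈ S₅ := by rw [h1]; exact hs
    exact ((hmem s).1 this).2

/-- Eg8: uniformly in `σ` (a group is not the union of two proper subgroups). -/
theorem MinOver.all_one_or_all_chi [NeZero m] {H' S : AddSubgroup G}
    (h : MinOver Γ H' S) {χ : Γ →* ZMod m}
    (hη : ∀ σ : Γ, ∀ s ∈ S, eta χ σ s ∈ H') :
    (∀ σ : Γ, ∀ s ∈ S, σ • s - s ∈ H') ∨ (∀ σ : Γ, ∀ s ∈ S, σ • s - χ σ • s ∈ H') := by
  by_contra hcon
  rw [not_or] at hcon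
  obtain ⟨h1, h2⟩ := hcon
  rw [not_forall] at h1 h2
  obtain ⟨a, ha⟩ := h1
  obtain ⟨b, hb⟩ := h2
  have hA : ∀ s ∈ S, a • s - χ a • s ∈ H' := (h.one_or_chi hη a).resolve_left ha
  have hB : ∀ s ∈ S, b • s - s ∈ H' := (h.one_or_chi hη b).resolve_right hb
  rcases h.one_or_chi hη (a * b) with h3 | h3
  · apply ha
    intro s hs
    have e : a • s - s = ((a * b) • s - s) - a • (b • s - s) := by
      rw [mul_smul, smul_sub]; abel
    rw [e]
    exact H'.sub_mem (h3 s hs) (h.stab' a _ (hB s hs))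
  · apply hb
    intro s hs
    have h4 : χ a • (b • s - χ b • s) ∈ H' := by
      have e : χ a • (b • s - χ b • s) =
          ((a * b) • s - χ (a * b) • s) - (a • b • s - χ a • b • s) := by
        rw [mul_smul, map_mul, mul_smul, smul_sub]; abel
      rw [e]
      exact H'.sub_mem (h3 s hs) (hA _ (h.stab b s hs))
    have h5 := zmod_smul_mem H' (χ a⁻¹) h4
    rwa [← mul_smul, ← map_mul, inv_mul_cancel, map_one, one_smul] at h5

end Fermat.Agent.S15.Eis
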