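/-
S15-EIS, layer A: the abstract Jordan-Hölder theorem (JH1 - JH3).
-/
import Fermat.Agent.S15.Eis.EigenC

set_option autoImplicit false

namespace Fermat.Agent.S15.Eis

open Fermat.Agent.S15.Coh

variable {Γ : Type*} [Group Γ] {l m : ℕ}
  {G : Type*} [AddCommGroup G] [DistribMulAction Γ G] [Module (ZMod m) G]

/-- JH1: adjoining one element `y ∉ H'` with `l y ∈ H'` multiplies the order by `l`. -/
theorem card_sup_zmultiples [Finite G] (hl : l.Prime) (H' : AddSubgroup G) {y : G} (hy : y ∉ H')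
    (hly : l • y ∈ H') :
    Nat.card (H' ⊔ AddSubgroup.zmultiples y : AddSubgroup G) = l * Nat.card H' := by
  classical
  have hmemH : ∀ (h : H') (j : Fin l),
      (h : G) + (j : ℕ) • y ∈ H' ⊔ AddSubgroup.zmultiples y := fun h j =>
    AddSubgroup.add_mem _ (AddSubgroup.mem_sup_left h.2)
      (AddSubgroup.mem_sup_right (AddSubgroup.nsmul_mem _ (AddSubgroup.mem_zmultiples y) _))
  let φ : H' × Fin l → (H' ⊔ AddSubgroup.zmultiples y : AddSubgroup G) :=
    fun p => ⟨(p.1 : G) + (p.2 : ℕ) • y, hmemH p.1 p.2⟩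
  have key : ∀ n : ℤ, n • y ∈ H' → (l : ℤ) ∣ n := by
    intro n hn
    by_contra hnd
    have hcop : IsCoprime (l : ℤ) n :=
      (Nat.prime_iff_prime_int.1 hl).coprime_iff_not_dvd.2 hnd
    obtain ⟨a, b, hab⟩ := hcop
    apply hy
    have e : y = a • (l • y) + b • (n • y) := by
      rw [← natCast_zsmul y l, ← mul_smul, ← mul_smul, ← add_smul, hab, one_smul]
    rw [e]
    exact H'.add_mem (H'.zsmul_mem hly a) (H'.zsmul_mem hn b)
  have hinj : Function.Injective φ := by
    rintro ⟨h, j⟩ ⟨h', j'⟩ hE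
    have h1 : (h : G) + (j : ℕ) • y = (h' : G) + (j' : ℕ) • y := congrArg Subtype.val hE
    have h2 : (((j : ℕ) : ℤ) - ((j' : ℕ) : ℤ)) • y ∈ H' := by
      have e : (((j : ℕ) : ℤ) - ((j' : ℕ) : ℤ)) • y = (h' : G) - (h : G) := by
        rw [sub_smul, natCast_zsmul, natCast_zsmul, sub_eq_sub_iff_add_eq_add, add_comm, h1,
          add_comm]
      rw [e]
      exact H'.sub_mem h'.2 h.2
    have h3 := key _ h2
    have hj1 := j.2
    have hj2 := j'.2
    have h4 : ((j : ℕ) : ℤ) - ((j' : ℕ) : ℤ) = 0 :=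
      Int.eq_zero_of_abs_lt_dvd h3 (abs_lt.2 ⟨by omega, by omega⟩)
    have hj : j = j' := Fin.ext (by omega)
    subst hj
    have h5 : (h : G) = h' := add_right_cancel h1
    exact Prod.ext (Subtype.ext h5) rfl
  have hsurj : Function.Surjective φ := by
    rintro ⟨x, hx⟩
    obtain ⟨a, ha, b, hb, hab⟩ := AddSubgroup.mem_sup.1 hx
    obtain ⟨n, rfl⟩ := AddSubgroup.mem_zmultiples_iff.1 hb
    have hl0 : (0 : ℤ) < l := by exact_mod_cast hl.pos
    have hr0 : 0 ≤ n % (l : ℤ) := Int.emod_nonneg _ hl0.ne'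
    have hr1 : n % (l : ℤ) < l := Int.emod_lt_of_pos _ hl0
    refine ⟨(⟨a + (n / (l : ℤ)) • (l • y), H'.add_mem ha (H'.zsmul_mem hly _)⟩,
      ⟨(n % (l : ℤ)).toNat, by omega⟩), ?_⟩
    apply Subtype.ext
    show a + (n / (l : ℤ)) • (l • y) + (n % (l : ℤ)).toNat • y = x
    rw [← hab, add_assoc]
    congr 1
    rw [← natCast_zsmul y l, ← natCast_zsmul y (n % (l : ℤ)).toNat, Int.toNat_of_nonneg hr0,
      ← mul_smul, ← add_smul, mul_comm, Int.mul_ediv_add_emod]
  rw [← Nat.card_congr (Equiv.ofBijective φ ⟨hinj, hsurj⟩), Nat.card_prod, Nat.card_fin, mul_comm]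

/-- JH2: one more step above a proper stable subgroup. -/
theorem exists_eStep [Finite G] [NeZero m] (hl : l.Prime) {r : ℕ} (hm : m = l ^ r)
    {χ : Γ →* ZMod m} (hE : EisHyp χ G) {H' : AddSubgroup G} (hH' : Stable Γ H') (hne : H' ≠ ⊤) :
    ∃ H : AddSubgroup G, Stable Γ H ∧ EStep l χ H' H := by
  obtain ⟨S, hS⟩ := exists_minOver hH' hne
  have hη : ∀ σ : Γ, ∀ s ∈ S, eta χ σ s ∈ H' := fun σ => hS.eta_mem hE σ
  obtain ⟨y, hyS, hyH⟩ := SetLike.exists_of_lt hS.lt
  have hle : H' ⊔ AddSubgroup.zmultiples y ≤ S :=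
    sup_le hS.lt.le ((AddSubgroup.zmultiples_le).2 hyS)
  have hle' : H' ≤ H' ⊔ AddSubgroup.zmultiples y := le_sup_left
  have hcard := card_sup_zmultiples hl H' hyH (hS.l_smul_mem hm y hyS)
  rcases hS.all_one_or_all_chi hη with h1 | h1
  · refine ⟨H' ⊔ AddSubgroup.zmultiples y, ?_, hle', hcard, Or.inl fun γ h hh => h1 γ h (hle hh)⟩
    intro γ h hh
    have e : γ • h = (γ • h - h) + h := by abel
    rw [e]
    exact AddSubgroup.add_mem _ (hle' (h1 γ h (hle hh))) hh
  · refine ⟨H' ⊔ AddSubgroup.zmultiples y, ?_, hle', hcard, Or.inr fun γ h hh => h1 γ h (hle hh)⟩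
    intro γ h hh
    have e : γ • h = (γ • h - χ γ • h) + χ γ • h := by abel
    rw [e]
    exact AddSubgroup.add_mem _ (hle' (h1 γ h (hle hh))) (zmod_smul_mem _ _ hh)

/-- JH3 = the abstract Jordan-Hölder theorem. -/
theorem eFilt_top [Finite G] [NeZero m] (hl : l.Prime) {r : ℕ} (hm : m = l ^ r)
    {χ : Γ →* ZMod m} (hE : EisHyp χ G) : EFilt l χ (⊤ : AddSubgroup G) := by
  have claim : ∀ n : ℕ, ∀ H' : AddSubgroup G, Stable Γ H' → EFilt l χ H' →
      Nat.card G - Nat.card H' ≤ n → EFilt l χ (⊤ : AddSubgroup G) := by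
    intro n
    induction n with
    | zero =>
      intro H' hst hF hn
      by_cases hne : H' = ⊤
      · rw [← hne]; exact hF
      · exfalso
        obtain ⟨H, _, hstep⟩ := exists_eStep hl hm hE hst hne
        have h1 := hstep.card
        have h2 : 0 < Nat.card H' := Nat.card_pos
        have h3 := hl.two_le
        have h4 : Nat.card H' < Nat.card H := by rw [h1]; nlinarith
        have h5 : Nat.card H ≤ Nat.card G := Finite.card_subtype_le _
        omega
    | succ n ih =>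
      intro H' hst hF hn
      by_cases hne : H' = ⊤
      · rw [← hne]; exact hF
      · obtain ⟨H, hH, hstep⟩ := exists_eStep hl hm hE hst hne
        refine ih H hH (EFilt.step hF hstep) ?_
        have h1 := hstep.card
        have h2 : 0 < Nat.card H' := Nat.card_pos
        have h3 := hl.two_le
        have h4 : Nat.card H' < Nat.card H := by rw [h1]; nlinarith
        omega
  refine claim _ ⊥ ?_ EFilt.bot le_rfl
  intro γ h hh
  rw [AddSubgroup.mem_bot] at hh ⊢
  rw [hh, smul_zero]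

end Fermat.Agent.S15.Eis
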