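/-
S15-EIS, layer A: transfer of chains to `BigFilt` (JH4 - JH6).
-/
import Fermat.Agent.S15.Eis.JH

set_option autoImplicit false

namespace Fermat.Agent.S15.Eis

open Fermat.Agent.S15.Coh

variable {Γ : Type*} [Group Γ] {l : ℕ}

variable [TopologicalSpace Γ] [NeZero l] {𝔾 : Type*} [AddCommGroup 𝔾] [DistribMulAction Γ 𝔾]

/-- JH4: transfer of one step from the level type to subgroups of `𝔾`. -/
theorem bigStep_of_eStep (T : ArithTower Γ l) (r : ℕ) {H' H : AddSubgroup (lev 𝔾 l r)}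
    (hS : EStep l (T.χ r) H' H) :
    BigStep T r (H'.map (lev 𝔾 l r).subtype) (H.map (lev 𝔾 l r).subtype) := by
  have hcard : ∀ K : AddSubgroup (lev 𝔾 l r),
      Nat.card (K.map (lev 𝔾 l r).subtype) = Nat.card K := fun K =>
    (Nat.card_congr (K.equivMapOfInjective _ (AddSubgroup.subtype_injective _)).toEquiv).symm
  refine ⟨AddSubgroup.map_mono hS.le, ?_, ?_⟩
  · rw [hcard, hcard, hS.card]
  · rcases hS.act with h1 | h1
    · left
      rintro γ _ ⟨x, hx, rfl⟩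
      exact ⟨γ • x - x, h1 γ x hx, rfl⟩
    · right
      rintro γ _ ⟨x, hx, rfl⟩
      refine ⟨γ • x - T.χ r γ • x, h1 γ x hx, ?_⟩
      show ((γ • x - T.χ r γ • x : lev 𝔾 l r) : 𝔾) = γ • (x : 𝔾) - (T.χ r γ).val • (x : 𝔾)
      rw [AddSubgroup.coe_sub, lev_coe_smul, lev_zmod_smul]

/-- JH5: transfer of chains. -/
theorem bigFilt_of_eFilt (T : ArithTower Γ l) (r : ℕ) {H : AddSubgroup (lev 𝔾 l r)}
    (hF : EFilt l (T.χ r) H) : BigFilt T r (H.map (lev 𝔾 l r).subtype) := by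
  induction hF with
  | bot =>
    rw [AddSubgroup.map_bot]
    exact BigFilt.bot
  | step _ hS ih => exact BigFilt.step ih (bigStep_of_eStep T r hS)

/-- JH6 = export of layer A. -/
theorem bigFilt_lev (hl : l.Prime) (T : ArithTower Γ l) (r : ℕ) [Finite (lev 𝔾 l r)]
    (hE : EisHyp (T.χ r) (lev 𝔾 l r)) : BigFilt T r (lev 𝔾 l r) := by
  have h1 := bigFilt_of_eFilt T r (eFilt_top hl rfl hE)
  have h2 : (⊤ : AddSubgroup (lev 𝔾 l r)).map (lev 𝔾 l r).subtype = lev 𝔾 l r := by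
    rw [← AddMonoidHom.range_eq_map, AddSubgroup.range_subtype]
  rwa [h2] at h1

end Fermat.Agent.S15.Eis
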