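/-
S15-EIS: EXPORTS (E1), (E2), (E3) for ABS-A (helper38).
`K0 hT : AddSubgroup J` = the non-Eisenstein part of `J[ℓ^∞]`.
-/
import Fermat.Agent.S15.Eis.OpsC
import Fermat.Agent.S15.Eis.Transfer

set_option autoImplicit false

namespace Fermat.Agent.S15.Eis

open Fermat.Agent.S15.Coh Fermat.Agent.S15.Abs Fermat.Agent.S15.Abs.C

variable {J : Type} [AddCommGroup J] [DistribMulAction GQ J] {p ℓ : ℕ}
  {R : Raw J p ℓ} {T : ArithTower GQ ℓ} (hT : Adapted R T)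

/-- the non-Eisenstein part of `J[ℓ^∞]`, as a subgroup of `J` -/
noncomputable def K0J : AddSubgroup J := (K0 (SS hT)).map (torL ℓ J).subtype

theorem mem_K0J {x : J} : x ∈ K0J hT ↔ ∃ hx : x ∈ torL ℓ J, (⟨x, hx⟩ : torL ℓ J) ∈ K0 (SS hT) := by
  constructor
  · rintro ⟨y, hy, rfl⟩
    exact ⟨y.2, hy⟩
  · rintro ⟨hx, h⟩
    exact ⟨⟨x, hx⟩, h, rfl⟩

/-- (E1a) -/
theorem K0J_le : K0J hT ≤ torInf J ℓ := fun _ hx => ((mem_K0J hT).1 hx).1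

/-- (E1b) -/
theorem smul_mem_K0J (σ : GQ) {x : J} (hx : x ∈ K0J hT) : σ • x ∈ K0J hT := by
  obtain ⟨hx', h⟩ := (mem_K0J hT).1 hx
  exact (mem_K0J hT).2 ⟨smul_mem_torL σ hx',
    map_mem_K0 (SS_comm hT) (galOp_comm_SS hT σ) h⟩

/-- (E1c) -/
theorem Tl_mem_K0J {x : J} (hx : x ∈ K0J hT) : R.Tℓ x ∈ K0J hT := by
  obtain ⟨hx', h⟩ := (mem_K0J hT).1 hx
  exact (mem_K0J hT).2 ⟨(TlOp R ⟨x, hx'⟩).2, map_mem_K0 (SS_comm hT) (TlOp_comm_SS hT) h⟩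

/-- (E1d) -/
theorem t_mem_K0J (σ : GQ) (k : ℕ) {x : J} (hx : x ∈ K0J hT) : σ • x + k • σ⁻¹ • x ∈ K0J hT :=
  (K0J hT).add_mem (smul_mem_K0J hT σ hx) ((K0J hT).nsmul_mem (smul_mem_K0J hT σ⁻¹ hx) k)

/-- (E1e) -/
theorem K0J_div {x : J} (hx : x ∈ K0J hT) : ∃ z ∈ K0J hT, ℓ • z = x := by
  obtain ⟨hx', h⟩ := (mem_K0J hT).1 hx
  obtain ⟨z, hz, hzx⟩ := K0_div (l := ℓ) (SS_comm hT)
    (fun y => by
      obtain ⟨r, hr⟩ := y.2
      exact ⟨r, Subtype.ext hr⟩)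
    (finite_level R) (torL_div R) h
  exact ⟨z.1, (mem_K0J hT).2 ⟨z.2, hz⟩, congrArg Subtype.val hzx⟩

/-- (E3) -/
theorem c_ne_add {g k : J} (hg : g ∈ R.J1 R.Aℓ) (hg' : g ∈ torInf J ℓ) (hk : k ∈ K0J hT)
    (h : R.c = g + k) : False := by
  obtain ⟨hk', hk0⟩ := (mem_K0J hT).1 hk
  have := mem_of_eq_add (SS_comm hT) (GmT R) (SS_GmT hT) (c_mem_CC hT)
    (g := ⟨g, hg'⟩) (k := ⟨k, hk'⟩) hg hk0 (Subtype.ext h)
  exact R.c_not_mem this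

variable {𝔾 : Type} [AddCommGroup 𝔾] [DistribMulAction GQ 𝔾]

/-- X1: since `KK = ker π` is divisible, `𝔾[ℓ^r] = π (J[ℓ^r])`. -/
theorem exists_lift_level (link : Link GQ J ℓ 𝔾) (r : ℕ) {y : 𝔾} (hy : ℓ ^ r • y = 0) :
    ∃ x : torL ℓ J, ℓ ^ r • x.1 = 0 ∧ link.π x = y := by
  have hdiv : ∀ (n : ℕ) (k : torL ℓ J), link.π k = 0 →
      ∃ k' : torL ℓ J, link.π k' = 0 ∧ ℓ ^ n • k' = k := by
    intro n
    induction n with
    | zero => exact fun k hk => ⟨k, hk, by simp⟩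
    | succ n ih =>
      intro k hk
      obtain ⟨k₁, hk₁, h1⟩ := link.div k hk
      obtain ⟨k₂, hk₂, h2⟩ := ih k₁ hk₁
      exact ⟨k₂, hk₂, by rw [pow_succ', mul_smul, h2, h1]⟩
  obtain ⟨x₀, hx₀⟩ := link.surj y
  obtain ⟨k', hk', h1⟩ := hdiv r (ℓ ^ r • x₀) (by rw [map_nsmul, hx₀, hy])
  refine ⟨x₀ - k', ?_, by rw [map_sub, hx₀, hk', sub_zero]⟩
  have h2 : ℓ ^ r • (x₀ - k') = 0 := by rw [smul_sub, h1, sub_self]
  exact congrArg Subtype.val h2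

theorem Export_pi_gal (link : Link GQ J ℓ 𝔾) (σ : GQ) (x : torL ℓ J) :
    link.π (galOp ℓ σ x) = σ • link.π x := link.equiv σ x

theorem Export_chiOp (r : ℕ) (σ : GQ) (z : torL ℓ J) (hz : ℓ ^ r • z.1 = 0) :
    chiOp hT σ z = (T.χ r σ).val • z := Subtype.ext (chiOp_coe hT σ z hz)

theorem Export_gal_level (r : ℕ) (σ : GQ) (z : torL ℓ J) (hz : ℓ ^ r • z.1 = 0) :
    ℓ ^ r • (galOp ℓ σ z).1 = 0 := by
  rw [galOp_coe, smul_comm, hz, smul_zero]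

/-- X2: `π` intertwines `η_σ` on the level `r`. -/
theorem pi_etaOp [NeZero ℓ] (link : Link GQ J ℓ 𝔾) (r : ℕ) (σ : GQ) (x : torL ℓ J)
    (hx : ℓ ^ r • x.1 = 0) (y : lev 𝔾 ℓ r) (hy : link.π x = y.1) :
    link.π (etaOp hT σ x) = ((eta (T.χ r) σ y : lev 𝔾 ℓ r) : 𝔾) := by
  have e1 : etaOp hT σ x = galOp ℓ σ x + (T.χ r σ).val • galOp ℓ σ⁻¹ x - x - (T.χ r σ).val • x := by
    show (galOp ℓ σ + chiOp hT σ * galOp ℓ σ⁻¹ - 1 - chiOp hT σ : AddMonoid.End (torL ℓ J)) x = _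
    rw [fitA_sub_apply, fitA_sub_apply, fitA_add_apply, fitA_mul_apply,
      Export_chiOp hT r σ x hx, Export_chiOp hT r σ _ (Export_gal_level r σ⁻¹ x hx)]
    rfl
  rw [e1, map_sub, map_sub, map_add, map_nsmul, map_nsmul, Export_pi_gal, Export_pi_gal, hy,
    eta_apply, add_smul, one_smul, AddSubgroup.coe_sub, AddSubgroup.coe_add, AddSubgroup.coe_add,
    lev_zmod_smul, lev_zmod_smul, lev_coe_smul, lev_coe_smul]
  abel

/-- X3: the same for iterates. -/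
theorem pi_etaOp_pow [NeZero ℓ] (link : Link GQ J ℓ 𝔾) (r : ℕ) (σ : GQ) (n : ℕ) (x : torL ℓ J)
    (hx : ℓ ^ r • x.1 = 0) (y : lev 𝔾 ℓ r) (hy : link.π x = y.1) :
    link.π ((etaOp hT σ ^ n) x) = (((eta (T.χ r) σ)^[n] y : lev 𝔾 ℓ r) : 𝔾) := by
  induction n with
  | zero => exact hy
  | succ n ih =>
    rw [pow_succ', fitA_mul_apply, Function.iterate_succ_apply']
    refine pi_etaOp hT link r σ _ ?_ _ ih
    have h1 : ℓ ^ r • x = 0 := Subtype.ext hx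
    have h2 : ℓ ^ r • (etaOp hT σ ^ n) x = 0 := by rw [← map_nsmul, h1, map_zero]
    exact congrArg Subtype.val h2

include hT in
/-- X4: (CH) on the level `r` of `𝔾` (from `Raw.ch` through `π`). -/
theorem ch_level [NeZero ℓ] (link : Link GQ J ℓ 𝔾) (r : ℕ) (σ τ : GQ) (y : lev 𝔾 ℓ r) :
    τ • tt (T.χ r) σ y = tt (T.χ r) σ (τ • y) := by
  obtain ⟨x, hx, hxy⟩ := exists_lift_level link r y.2
  have h1 : galOp ℓ τ (galOp ℓ σ x + (T.χ r σ).val • galOp ℓ σ⁻¹ x) =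
      galOp ℓ σ (galOp ℓ τ x) + (T.χ r σ).val • galOp ℓ σ⁻¹ (galOp ℓ τ x) :=
    Subtype.ext (R.ch r σ _ (hT.χ r σ) τ x.1 hx)
  have h2 := congrArg link.π h1
  simp only [Export_pi_gal, map_add, map_nsmul, hxy] at h2
  apply Subtype.ext
  simp only [tt_apply, lev_coe_smul, AddSubgroup.coe_add, lev_zmod_smul]
  rw [smul_add, smul_comm τ (T.χ r σ).val]
  exact h2

/-- X5: the hypotheses of the abstract Jordan-Hölder theorem hold on every level of `𝔾`. -/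
theorem eisHyp_level [NeZero ℓ] (link : Link GQ J ℓ 𝔾) (hK : K0J hT ≤ link.KK) (r : ℕ) :
    EisHyp (T.χ r) (lev 𝔾 ℓ r) := by
  refine ⟨fun σ τ y => ch_level hT link r σ τ y, fun σ => ?_⟩
  obtain ⟨n, hn⟩ := exists_pow_mem_K0 (S := SS hT) r (finite_level R r) (η := etaOp hT σ)
    (Or.inl ⟨σ, rfl⟩)
  refine ⟨n, fun y => ?_⟩
  obtain ⟨x, hx, hxy⟩ := exists_lift_level link r y.2
  have h1 : (etaOp hT σ ^ n) x ∈ K0 (SS hT) := hn x (Subtype.ext hx)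
  have h2 : ((etaOp hT σ ^ n) x).1 ∈ link.KK := hK ((mem_K0J hT).2 ⟨((etaOp hT σ ^ n) x).2, h1⟩)
  obtain ⟨_, h3⟩ := link.mem_KK.1 h2
  apply Subtype.ext
  rw [← pi_etaOp_pow hT link r σ n x hx y hxy]
  exact h3

/-- X6: the levels of `𝔾` are finite. -/
theorem finite_lev (R : Raw J p ℓ) (link : Link GQ J ℓ 𝔾) (r : ℕ) : Finite (lev 𝔾 ℓ r) := by
  have h1 : ((lev 𝔾 ℓ r : AddSubgroup 𝔾) : Set 𝔾).Finite := by
    refine ((finite_level R r).image link.π).subset ?_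
    intro y hy
    obtain ⟨x, hx, hxy⟩ := exists_lift_level link r hy
    exact ⟨x, Subtype.ext hx, hxy⟩
  exact h1.to_subtype

/-- (E2) -/
theorem bigFilt (link : Link GQ J ℓ 𝔾) (hK : K0J hT ≤ link.KK) (r : ℕ) :
    BigFilt T r (lev 𝔾 ℓ r) := by
  have : NeZero ℓ := ⟨R.hℓ.ne_zero⟩
  have := finite_lev R link r
  exact bigFilt_lev R.hℓ T r (eisHyp_level hT link hK r)

end Fermat.Agent.S15.Eis
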